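import Mathlib
import Fermat.Agent.T1.RedIface75
import Fermat.Agent.Jac.BaseChange75.Cube

/-!
# T1A (S19), REDUCTION layer: composition of base changes along cubes, mixed squares  (helper20)

* `bc_bc` : `LinePic.bc` along a tower of cubes composes (any cubes, so also semilinear ones);
* `PicX.map_mapSemi_eq` : linear after semilinear = semilinear along the composite;
* `PicX.mapSemi_map_eq` : semilinear after linear = semilinear along the composite;
* `PicX.map_mapSemi_sq` : **the mixed square**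
  `PicX.map c0 A' A1' (PicX.mapSemi S f hf x) = PicX.mapSemi S f1 hf1 (PicX.map c0 A A1 x)`
  for `f1 ∘ algebraMap A A1 = algebraMap A' A1' ∘ f`.
-/

set_option autoImplicit false
set_option linter.unusedSectionVars false
set_option linter.style.haveILetI false

open TensorProduct

namespace Fermat.Agent.T1.Red20.BcSquare

open Fermat.Agent.Jac Fermat.Agent.Jac.JSmooth85Alg Fermat.Agent.Jac.JGroup85Pic
open Fermat.Agent.Jac.BaseChange75 Fermat.Agent.T1.RedIface75
open scoped Fermat.Agent.Jac.BaseChange75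

universe u

/-! ### Towers of cubes -/

section General

variable {A R0 R1 R01 A' R0' R1' R01' A'' R0'' R1'' R01'' : Type u}
  [CommRing A] [CommRing R0] [CommRing R1] [CommRing R01]
  [Algebra A R0] [Algebra A R1] [Algebra A R01] [Algebra R0 R01] [Algebra R1 R01]
  [IsScalarTower A R0 R01] [IsScalarTower A R1 R01]
  [CommRing A'] [CommRing R0'] [CommRing R1'] [CommRing R01']
  [Algebra A' R0'] [Algebra A' R1'] [Algebra A' R01'] [Algebra R0' R01'] [Algebra R1' R01']
  [IsScalarTower A' R0' R01'] [IsScalarTower A' R1' R01']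
  [CommRing A''] [CommRing R0''] [CommRing R1''] [CommRing R01'']
  [Algebra A'' R0''] [Algebra A'' R1''] [Algebra A'' R01''] [Algebra R0'' R01'']
  [Algebra R1'' R01''] [IsScalarTower A'' R0'' R01''] [IsScalarTower A'' R1'' R01'']
  [Algebra R0 R0'] [Algebra R1 R1'] [Algebra R01 R01']
  [Algebra R0' R0''] [Algebra R1' R1''] [Algebra R01' R01'']
  [Algebra R0 R0''] [Algebra R1 R1''] [Algebra R01 R01'']
  [IsScalarTower R0 R0' R0''] [IsScalarTower R1 R1' R1''] [IsScalarTower R01 R01' R01'']
  (hc0 : (algebraMap R0' R01').comp (algebraMap R0 R0') =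
    (algebraMap R01 R01').comp (algebraMap R0 R01))
  (hc1 : (algebraMap R1' R01').comp (algebraMap R1 R1') =
    (algebraMap R01 R01').comp (algebraMap R1 R01))
  (hc0' : (algebraMap R0'' R01'').comp (algebraMap R0' R0'') =
    (algebraMap R01' R01'').comp (algebraMap R0' R01'))
  (hc1' : (algebraMap R1'' R01'').comp (algebraMap R1' R1'') =
    (algebraMap R01' R01'').comp (algebraMap R1' R01'))
  (hc0'' : (algebraMap R0'' R01'').comp (algebraMap R0 R0'') =
    (algebraMap R01 R01'').comp (algebraMap R0 R01))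
  (hc1'' : (algebraMap R1'' R01'').comp (algebraMap R1 R1'') =
    (algebraMap R01 R01'').comp (algebraMap R1 R01))
  (c : TwoChart A R0 R1 R01) (c' : TwoChart A' R0' R1' R01') (c'' : TwoChart A'' R0'' R1'' R01'')

/-- **Base changes along a tower of cubes compose.** -/
theorem bc_bc (x : LinePic c) :
    LinePic.bc hc0' hc1' c' c'' (LinePic.bc hc0 hc1 c c' x) = LinePic.bc hc0'' hc1'' c c'' x := by
  obtain ⟨L, hL, rfl⟩ := LinePic.exists_rep x
  rw [LinePic.bc_mk hc0 hc1 c c' hL (liftData_bcCube hc0 hc1 L),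
    LinePic.bc_mk hc0' hc1' c' c'' _ (liftData_bcCube hc0' hc1' _)]
  exact (LinePic.bc_mk hc0'' hc1'' c c'' hL
    (BaseChange75.LiftData.trans (liftData_bcCube hc0 hc1 L) (liftData_bcCube hc0' hc1' _))).symm

end General

/-! ### Semilinear tensor maps compose -/

section SemiTensor

variable {W A A' A'' B : Type u} [CommRing W] [CommRing A] [CommRing A'] [CommRing A'']
  [CommRing B] [Algebra W A] [Algebra W A'] [Algebra W A''] [Algebra W B]

/-- Linear after semilinear. -/
theorem algebraMap_semiTensor [Algebra A' A''] [IsScalarTower W A' A'']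
    (σW : W →+* W) (f : A →+* A') (τ : B →+* B)
    (hf : ∀ (w : W) (a : A), f (w • a) = σW w • f a)
    (hτ : ∀ (w : W) (b : B), τ (w • b) = σW w • τ b)
    (hg : ∀ (w : W) (a : A), ((algebraMap A' A'').comp f) (w • a) =
      σW w • ((algebraMap A' A'').comp f) a) (x : A ⊗[W] B) :
    semiTensor σW ((algebraMap A' A'').comp f) τ hg hτ x =
      algebraMap (A' ⊗[W] B) (A'' ⊗[W] B) (semiTensor σW f τ hf hτ x) := by
  induction x using TensorProduct.induction_on with
  | zero => simp
  | add x y hx hy => rw [map_add, map_add, map_add, hx, hy]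
  | tmul a b => rw [semiTensor_tmul, semiTensor_tmul, algebraMap_left_tmul]; rfl

/-- Semilinear after linear. -/
theorem semiTensor_algebraMap [Algebra A A'] [IsScalarTower W A A']
    (σW : W →+* W) (f : A' →+* A'') (τ : B →+* B)
    (hf : ∀ (w : W) (a : A'), f (w • a) = σW w • f a)
    (hτ : ∀ (w : W) (b : B), τ (w • b) = σW w • τ b)
    (hg : ∀ (w : W) (a : A), (f.comp (algebraMap A A')) (w • a) =
      σW w • (f.comp (algebraMap A A')) a) (x : A ⊗[W] B) :
    semiTensor σW (f.comp (algebraMap A A')) τ hg hτ x =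
      semiTensor σW f τ hf hτ (algebraMap (A ⊗[W] B) (A' ⊗[W] B) x) := by
  induction x using TensorProduct.induction_on with
  | zero => simp
  | add x y hx hy => rw [map_add, map_add, map_add, hx, hy]
  | tmul a b => rw [semiTensor_tmul, algebraMap_left_tmul, semiTensor_tmul]; rfl

end SemiTensor

/-! ### The hub -/

section Hub

variable {W B0 B1 B01 : Type u} [CommRing W] [CommRing B0] [CommRing B1] [CommRing B01]
  [Algebra W B0] [Algebra W B1] [Algebra W B01] [Algebra B0 B01] [Algebra B1 B01]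
  [IsScalarTower W B0 B01] [IsScalarTower W B1 B01]
  {c0 : TwoChart W B0 B1 B01} (S : ChartAut c0)

/-- `PicX.mapSemi` only depends on the ring homomorphism. -/
theorem PicX.mapSemi_congr {A A' : Type u} [CommRing A] [CommRing A'] [Algebra W A]
    [Algebra W A'] {f f' : A →+* A'} (h : f = f')
    (hf : ∀ (w : W) (a : A), f (w • a) = S.σW w • f a)
    (hf' : ∀ (w : W) (a : A), f' (w • a) = S.σW w • f' a) (x : PicX c0 A) :
    PicX.mapSemi S f hf x = PicX.mapSemi S f' hf' x := by
  subst h
  rfl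

variable {A A' A'' : Type u} [CommRing A] [CommRing A'] [CommRing A'']
  [Algebra W A] [Algebra W A'] [Algebra W A'']

/-- **Linear after semilinear** base change is the semilinear base change along the composite. -/
theorem PicX.map_mapSemi_eq [Algebra A' A''] [IsScalarTower W A' A'']
    (f : A →+* A') (hf : ∀ (w : W) (a : A), f (w • a) = S.σW w • f a)
    (hg : ∀ (w : W) (a : A), ((algebraMap A' A'').comp f) (w • a) =
      S.σW w • ((algebraMap A' A'').comp f) a) (x : PicX c0 A) :
    PicX.map c0 A' A'' (PicX.mapSemi S f hf x) =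
      PicX.mapSemi S ((algebraMap A' A'').comp f) hg x := by
  letI i0 : Algebra (A ⊗[W] B0) (A' ⊗[W] B0) := (semiTensor S.σW f S.σ0 hf S.semi0).toAlgebra
  letI i1 : Algebra (A ⊗[W] B1) (A' ⊗[W] B1) := (semiTensor S.σW f S.σ1 hf S.semi1).toAlgebra
  letI i01 : Algebra (A ⊗[W] B01) (A' ⊗[W] B01) :=
    (semiTensor S.σW f S.σ01 hf S.semi01).toAlgebra
  letI j0 : Algebra (A ⊗[W] B0) (A'' ⊗[W] B0) :=
    (semiTensor S.σW ((algebraMap A' A'').comp f) S.σ0 hg S.semi0).toAlgebra
  letI j1 : Algebra (A ⊗[W] B1) (A'' ⊗[W] B1) :=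
    (semiTensor S.σW ((algebraMap A' A'').comp f) S.σ1 hg S.semi1).toAlgebra
  letI j01 : Algebra (A ⊗[W] B01) (A'' ⊗[W] B01) :=
    (semiTensor S.σW ((algebraMap A' A'').comp f) S.σ01 hg S.semi01).toAlgebra
  haveI t0 : IsScalarTower (A ⊗[W] B0) (A' ⊗[W] B0) (A'' ⊗[W] B0) :=
    IsScalarTower.of_algebraMap_eq (algebraMap_semiTensor S.σW f S.σ0 hf S.semi0 hg)
  haveI t1 : IsScalarTower (A ⊗[W] B1) (A' ⊗[W] B1) (A'' ⊗[W] B1) :=
    IsScalarTower.of_algebraMap_eq (algebraMap_semiTensor S.σW f S.σ1 hf S.semi1 hg)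
  haveI t01 : IsScalarTower (A ⊗[W] B01) (A' ⊗[W] B01) (A'' ⊗[W] B01) :=
    IsScalarTower.of_algebraMap_eq (algebraMap_semiTensor S.σW f S.σ01 hf S.semi01 hg)
  exact bc_bc (A := A) (A' := A') (A'' := A'') (S.square0 f hf) (S.square1 f hf)
    (square_comm W A' A'' B0 B01) (square_comm W A' A'' B1 B01)
    (S.square0 ((algebraMap A' A'').comp f) hg) (S.square1 ((algebraMap A' A'').comp f) hg)
    (c0.baseChange A) (c0.baseChange A') (c0.baseChange A'') x

/-- **Semilinear after linear** base change is the semilinear base change along the composite. -/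
theorem PicX.mapSemi_map_eq [Algebra A A'] [IsScalarTower W A A']
    (f : A' →+* A'') (hf : ∀ (w : W) (a : A'), f (w • a) = S.σW w • f a)
    (hg : ∀ (w : W) (a : A), (f.comp (algebraMap A A')) (w • a) =
      S.σW w • (f.comp (algebraMap A A')) a) (x : PicX c0 A) :
    PicX.mapSemi S f hf (PicX.map c0 A A' x) =
      PicX.mapSemi S (f.comp (algebraMap A A')) hg x := by
  letI i0 : Algebra (A' ⊗[W] B0) (A'' ⊗[W] B0) := (semiTensor S.σW f S.σ0 hf S.semi0).toAlgebra
  letI i1 : Algebra (A' ⊗[W] B1) (A'' ⊗[W] B1) := (semiTensor S.σW f S.σ1 hf S.semi1).toAlgebra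
  letI i01 : Algebra (A' ⊗[W] B01) (A'' ⊗[W] B01) :=
    (semiTensor S.σW f S.σ01 hf S.semi01).toAlgebra
  letI j0 : Algebra (A ⊗[W] B0) (A'' ⊗[W] B0) :=
    (semiTensor S.σW (f.comp (algebraMap A A')) S.σ0 hg S.semi0).toAlgebra
  letI j1 : Algebra (A ⊗[W] B1) (A'' ⊗[W] B1) :=
    (semiTensor S.σW (f.comp (algebraMap A A')) S.σ1 hg S.semi1).toAlgebra
  letI j01 : Algebra (A ⊗[W] B01) (A'' ⊗[W] B01) :=
    (semiTensor S.σW (f.comp (algebraMap A A')) S.σ01 hg S.semi01).toAlgebra
  haveI t0 : IsScalarTower (A ⊗[W] B0) (A' ⊗[W] B0) (A'' ⊗[W] B0) :=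
    IsScalarTower.of_algebraMap_eq (semiTensor_algebraMap S.σW f S.σ0 hf S.semi0 hg)
  haveI t1 : IsScalarTower (A ⊗[W] B1) (A' ⊗[W] B1) (A'' ⊗[W] B1) :=
    IsScalarTower.of_algebraMap_eq (semiTensor_algebraMap S.σW f S.σ1 hf S.semi1 hg)
  haveI t01 : IsScalarTower (A ⊗[W] B01) (A' ⊗[W] B01) (A'' ⊗[W] B01) :=
    IsScalarTower.of_algebraMap_eq (semiTensor_algebraMap S.σW f S.σ01 hf S.semi01 hg)
  exact bc_bc (A := A) (A' := A') (A'' := A'')
    (square_comm W A A' B0 B01) (square_comm W A A' B1 B01)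
    (S.square0 f hf) (S.square1 f hf)
    (S.square0 (f.comp (algebraMap A A')) hg) (S.square1 (f.comp (algebraMap A A')) hg)
    (c0.baseChange A) (c0.baseChange A') (c0.baseChange A'') x

end Hub

section Mixed

variable {W B0 B1 B01 : Type u} [CommRing W] [CommRing B0] [CommRing B1] [CommRing B01]
  [Algebra W B0] [Algebra W B1] [Algebra W B01] [Algebra B0 B01] [Algebra B1 B01]
  [IsScalarTower W B0 B01] [IsScalarTower W B1 B01]
  {c0 : TwoChart W B0 B1 B01} (S : ChartAut c0)
  {A A' A1 A1' : Type u} [CommRing A] [CommRing A'] [CommRing A1] [CommRing A1']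
  [Algebra W A] [Algebra W A'] [Algebra W A1] [Algebra W A1']
  [Algebra A A1] [IsScalarTower W A A1] [Algebra A' A1'] [IsScalarTower W A' A1']

/-- The composite `algebraMap ∘ f` of a semilinear map with a linear one is semilinear. -/
theorem semi_comp_left (f : A →+* A') (hf : ∀ (w : W) (a : A), f (w • a) = S.σW w • f a)
    (w : W) (a : A) : ((algebraMap A' A1').comp f) (w • a) =
      S.σW w • ((algebraMap A' A1').comp f) a := by
  rw [RingHom.comp_apply, hf, Algebra.smul_def, map_mul, ← IsScalarTower.algebraMap_apply,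
    ← Algebra.smul_def]
  rfl

/-- The composite `f1 ∘ algebraMap` of a linear map with a semilinear one is semilinear. -/
theorem semi_comp_right (f1 : A1 →+* A1')
    (hf1 : ∀ (w : W) (a : A1), f1 (w • a) = S.σW w • f1 a)
    (w : W) (a : A) : (f1.comp (algebraMap A A1)) (w • a) =
      S.σW w • (f1.comp (algebraMap A A1)) a := by
  rw [RingHom.comp_apply, Algebra.smul_def, map_mul, ← IsScalarTower.algebraMap_apply,
    ← Algebra.smul_def, hf1]
  rfl

/-- **The mixed square**: semilinear base change commutes with linear base change. -/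
theorem PicX.map_mapSemi_sq (f : A →+* A') (hf : ∀ (w : W) (a : A), f (w • a) = S.σW w • f a)
    (f1 : A1 →+* A1') (hf1 : ∀ (w : W) (a : A1), f1 (w • a) = S.σW w • f1 a)
    (hsq : f1.comp (algebraMap A A1) = (algebraMap A' A1').comp f) (x : PicX c0 A) :
    PicX.map c0 A' A1' (PicX.mapSemi S f hf x) = PicX.mapSemi S f1 hf1 (PicX.map c0 A A1 x) := by
  rw [PicX.map_mapSemi_eq S f hf (semi_comp_left S f hf),
    PicX.mapSemi_map_eq S f1 hf1 (semi_comp_right S f1 hf1)]
  exact (PicX.mapSemi_congr S hsq _ _ x).symm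

end Mixed

end Fermat.Agent.T1.Red20.BcSquare
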