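import Mathlib
import Fermat.Agent.T1.Red20.BcSquare

/-!
# T1A (S19), REDUCTION layer: the semilinear base changes form an action  (helper20)

* `bc_toAlgebra_congr` : `LinePic.bc` along a cube only depends on the ring homomorphisms;
* `bc_id` : base change along the identity cube is the identity;
* `PicX.mapSemi_id` : for a chart automorphism with identity components,
  `PicX.mapSemi S (RingHom.id A) = id`;
* `PicX.mapSemi_mapSemi` : `PicX.mapSemi S' f' ∘ PicX.mapSemi S f = PicX.mapSemi S'' (f' ∘ f)` when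
  the components of `S''` are the composites of those of `S'` and `S`.
-/

set_option autoImplicit false
set_option linter.unusedSectionVars false
set_option linter.style.haveILetI false

open TensorProduct

namespace Fermat.Agent.T1.Red20.BcSemiComp

open Fermat.Agent.Jac Fermat.Agent.Jac.JSmooth85Alg Fermat.Agent.Jac.JGroup85Pic
open Fermat.Agent.Jac.BaseChange75 Fermat.Agent.T1.RedIface75
open Fermat.Agent.T1.Red20.BcSquare
open scoped Fermat.Agent.Jac.BaseChange75

universe u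

section General

variable {A R0 R1 R01 A' R0' R1' R01' : Type u}
  [CommRing A] [CommRing R0] [CommRing R1] [CommRing R01]
  [Algebra A R0] [Algebra A R1] [Algebra A R01] [Algebra R0 R01] [Algebra R1 R01]
  [IsScalarTower A R0 R01] [IsScalarTower A R1 R01]
  [CommRing A'] [CommRing R0'] [CommRing R1'] [CommRing R01']
  [Algebra A' R0'] [Algebra A' R1'] [Algebra A' R01'] [Algebra R0' R01'] [Algebra R1' R01']
  [IsScalarTower A' R0' R01'] [IsScalarTower A' R1' R01']

/-- `LinePic.bc` along a cube only depends on the ring homomorphisms of the cube. -/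
theorem bc_toAlgebra_congr {φ0 ψ0 : R0 →+* R0'} {φ1 ψ1 : R1 →+* R1'} {φ01 ψ01 : R01 →+* R01'}
    (h0 : φ0 = ψ0) (h1 : φ1 = ψ1) (h01 : φ01 = ψ01)
    (hc0 : (algebraMap R0' R01').comp φ0 = φ01.comp (algebraMap R0 R01))
    (hc1 : (algebraMap R1' R01').comp φ1 = φ01.comp (algebraMap R1 R01))
    (hc0' : (algebraMap R0' R01').comp ψ0 = ψ01.comp (algebraMap R0 R01))
    (hc1' : (algebraMap R1' R01').comp ψ1 = ψ01.comp (algebraMap R1 R01))
    (c : TwoChart A R0 R1 R01) (c' : TwoChart A' R0' R1' R01') (x : LinePic c) :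
    (letI : Algebra R0 R0' := φ0.toAlgebra
     letI : Algebra R1 R1' := φ1.toAlgebra
     letI : Algebra R01 R01' := φ01.toAlgebra
     LinePic.bc (A := A) (A' := A') hc0 hc1 c c' x) =
    (letI : Algebra R0 R0' := ψ0.toAlgebra
     letI : Algebra R1 R1' := ψ1.toAlgebra
     letI : Algebra R01 R01' := ψ01.toAlgebra
     LinePic.bc (A := A) (A' := A') hc0' hc1' c c' x) := by
  subst h0 h1 h01
  rfl

end General

section Id

variable {A R0 R1 R01 : Type u}
  [CommRing A] [CommRing R0] [CommRing R1] [CommRing R01]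
  [Algebra A R0] [Algebra A R1] [Algebra A R01] [Algebra R0 R01] [Algebra R1 R01]
  [IsScalarTower A R0 R01] [IsScalarTower A R1 R01]

/-- Base change along the identity cube is the identity. -/
theorem bc_id (hc0 : (algebraMap R0 R01).comp (algebraMap R0 R0) =
      (algebraMap R01 R01).comp (algebraMap R0 R01))
    (hc1 : (algebraMap R1 R01).comp (algebraMap R1 R1) =
      (algebraMap R01 R01).comp (algebraMap R1 R01))
    (c : TwoChart A R0 R1 R01) (x : LinePic c) :
    LinePic.bc (A := A) (A' := A) hc0 hc1 c c x = x := by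
  obtain ⟨L, hL, rfl⟩ := LinePic.exists_rep x
  exact LinePic.bc_mk hc0 hc1 c c hL (LiftData.refl L)

/-- Base change along the identity cube, in `toAlgebra` form. -/
theorem bc_id' (hc0 : (algebraMap R0 R01).comp (RingHom.id R0) =
      (RingHom.id R01).comp (algebraMap R0 R01))
    (hc1 : (algebraMap R1 R01).comp (RingHom.id R1) =
      (RingHom.id R01).comp (algebraMap R1 R01))
    (c : TwoChart A R0 R1 R01) (x : LinePic c) :
    (letI : Algebra R0 R0 := (RingHom.id R0).toAlgebra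
     letI : Algebra R1 R1 := (RingHom.id R1).toAlgebra
     letI : Algebra R01 R01 := (RingHom.id R01).toAlgebra
     LinePic.bc (A := A) (A' := A) hc0 hc1 c c x) = x :=
  bc_id hc0 hc1 c x

end Id

section Hub

variable {W B0 B1 B01 : Type u} [CommRing W] [CommRing B0] [CommRing B1] [CommRing B01]
  [Algebra W B0] [Algebra W B1] [Algebra W B01] [Algebra B0 B01] [Algebra B1 B01]
  [IsScalarTower W B0 B01] [IsScalarTower W B1 B01]
  {c0 : TwoChart W B0 B1 B01}

/-- A semilinear tensor map with identity components is the identity. -/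
theorem semiTensor_id {A B : Type u} [CommRing A] [CommRing B] [Algebra W A] [Algebra W B]
    (σW : W →+* W) (τ : B →+* B) (hτ' : τ = RingHom.id B)
    (hf : ∀ (w : W) (a : A), RingHom.id A (w • a) = σW w • RingHom.id A a)
    (hτ : ∀ (w : W) (b : B), τ (w • b) = σW w • τ b) :
    semiTensor σW (RingHom.id A) τ hf hτ = RingHom.id (A ⊗[W] B) := by
  subst hτ'
  refine RingHom.ext fun x => ?_
  induction x using TensorProduct.induction_on with
  | zero => simp
  | add x y hx hy => rw [map_add, hx, hy, map_add]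
  | tmul a b => rfl

/-- **The identity acts trivially.** -/
theorem PicX.mapSemi_id (S : ChartAut c0) (h0 : S.σ0 = RingHom.id B0) (h1 : S.σ1 = RingHom.id B1)
    (h01 : S.σ01 = RingHom.id B01) {A : Type u} [CommRing A] [Algebra W A]
    (hf : ∀ (w : W) (a : A), RingHom.id A (w • a) = S.σW w • RingHom.id A a) (x : PicX c0 A) :
    PicX.mapSemi S (RingHom.id A) hf x = x := by
  have e0 := semiTensor_id (A := A) S.σW S.σ0 h0 hf S.semi0
  have e1 := semiTensor_id (A := A) S.σW S.σ1 h1 hf S.semi1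
  have e01 := semiTensor_id (A := A) S.σW S.σ01 h01 hf S.semi01
  have hc0 : (algebraMap (A ⊗[W] B0) (A ⊗[W] B01)).comp (RingHom.id (A ⊗[W] B0)) =
      (RingHom.id (A ⊗[W] B01)).comp (algebraMap (A ⊗[W] B0) (A ⊗[W] B01)) := rfl
  have hc1 : (algebraMap (A ⊗[W] B1) (A ⊗[W] B01)).comp (RingHom.id (A ⊗[W] B1)) =
      (RingHom.id (A ⊗[W] B01)).comp (algebraMap (A ⊗[W] B1) (A ⊗[W] B01)) := rfl
  exact (bc_toAlgebra_congr (A := A) (A' := A) e0 e1 e01 (S.square0 (RingHom.id A) hf)
    (S.square1 (RingHom.id A) hf) hc0 hc1 (c0.baseChange A) (c0.baseChange A) x).trans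
    (bc_id' hc0 hc1 (c0.baseChange A) x)

/-- Semilinear tensor maps compose. -/
theorem semiTensor_semiTensor {A A' A'' B : Type u} [CommRing A] [CommRing A'] [CommRing A'']
    [CommRing B] [Algebra W A] [Algebra W A'] [Algebra W A''] [Algebra W B]
    (σW σW' σW'' : W →+* W) (τ τ' τ'' : B →+* B) (hτ'' : τ'' = τ'.comp τ)
    (f : A →+* A') (f' : A' →+* A'')
    (hf : ∀ (w : W) (a : A), f (w • a) = σW w • f a)
    (hτ : ∀ (w : W) (b : B), τ (w • b) = σW w • τ b)
    (hf' : ∀ (w : W) (a : A'), f' (w • a) = σW' w • f' a)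
    (hτ' : ∀ (w : W) (b : B), τ' (w • b) = σW' w • τ' b)
    (hg : ∀ (w : W) (a : A), (f'.comp f) (w • a) = σW'' w • (f'.comp f) a)
    (hτ''s : ∀ (w : W) (b : B), τ'' (w • b) = σW'' w • τ'' b) (x : A ⊗[W] B) :
    semiTensor σW'' (f'.comp f) τ'' hg hτ''s x =
      semiTensor σW' f' τ' hf' hτ' (semiTensor σW f τ hf hτ x) := by
  subst hτ''
  induction x using TensorProduct.induction_on with
  | zero => simp
  | add x y hx hy => rw [map_add, map_add, map_add, hx, hy]
  | tmul a b => rfl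

variable {A A' A'' : Type u} [CommRing A] [CommRing A'] [CommRing A'']
  [Algebra W A] [Algebra W A'] [Algebra W A'']

/-- **Semilinear base changes compose.** -/
theorem PicX.mapSemi_mapSemi (S S' S'' : ChartAut c0)
    (h0 : S''.σ0 = S'.σ0.comp S.σ0) (h1 : S''.σ1 = S'.σ1.comp S.σ1)
    (h01 : S''.σ01 = S'.σ01.comp S.σ01)
    (f : A →+* A') (hf : ∀ (w : W) (a : A), f (w • a) = S.σW w • f a)
    (f' : A' →+* A'') (hf' : ∀ (w : W) (a : A'), f' (w • a) = S'.σW w • f' a)
    (hg : ∀ (w : W) (a : A), (f'.comp f) (w • a) = S''.σW w • (f'.comp f) a) (x : PicX c0 A) :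
    PicX.mapSemi S' f' hf' (PicX.mapSemi S f hf x) = PicX.mapSemi S'' (f'.comp f) hg x := by
  letI i0 : Algebra (A ⊗[W] B0) (A' ⊗[W] B0) := (semiTensor S.σW f S.σ0 hf S.semi0).toAlgebra
  letI i1 : Algebra (A ⊗[W] B1) (A' ⊗[W] B1) := (semiTensor S.σW f S.σ1 hf S.semi1).toAlgebra
  letI i01 : Algebra (A ⊗[W] B01) (A' ⊗[W] B01) :=
    (semiTensor S.σW f S.σ01 hf S.semi01).toAlgebra
  letI i0' : Algebra (A' ⊗[W] B0) (A'' ⊗[W] B0) :=
    (semiTensor S'.σW f' S'.σ0 hf' S'.semi0).toAlgebra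
  letI i1' : Algebra (A' ⊗[W] B1) (A'' ⊗[W] B1) :=
    (semiTensor S'.σW f' S'.σ1 hf' S'.semi1).toAlgebra
  letI i01' : Algebra (A' ⊗[W] B01) (A'' ⊗[W] B01) :=
    (semiTensor S'.σW f' S'.σ01 hf' S'.semi01).toAlgebra
  letI j0 : Algebra (A ⊗[W] B0) (A'' ⊗[W] B0) :=
    (semiTensor S''.σW (f'.comp f) S''.σ0 hg S''.semi0).toAlgebra
  letI j1 : Algebra (A ⊗[W] B1) (A'' ⊗[W] B1) :=
    (semiTensor S''.σW (f'.comp f) S''.σ1 hg S''.semi1).toAlgebra
  letI j01 : Algebra (A ⊗[W] B01) (A'' ⊗[W] B01) :=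
    (semiTensor S''.σW (f'.comp f) S''.σ01 hg S''.semi01).toAlgebra
  haveI t0 : IsScalarTower (A ⊗[W] B0) (A' ⊗[W] B0) (A'' ⊗[W] B0) :=
    IsScalarTower.of_algebraMap_eq (semiTensor_semiTensor S.σW S'.σW S''.σW S.σ0 S'.σ0 S''.σ0 h0
      f f' hf S.semi0 hf' S'.semi0 hg S''.semi0)
  haveI t1 : IsScalarTower (A ⊗[W] B1) (A' ⊗[W] B1) (A'' ⊗[W] B1) :=
    IsScalarTower.of_algebraMap_eq (semiTensor_semiTensor S.σW S'.σW S''.σW S.σ1 S'.σ1 S''.σ1 h1
      f f' hf S.semi1 hf' S'.semi1 hg S''.semi1)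
  haveI t01 : IsScalarTower (A ⊗[W] B01) (A' ⊗[W] B01) (A'' ⊗[W] B01) :=
    IsScalarTower.of_algebraMap_eq (semiTensor_semiTensor S.σW S'.σW S''.σW S.σ01 S'.σ01 S''.σ01
      h01 f f' hf S.semi01 hf' S'.semi01 hg S''.semi01)
  exact bc_bc (A := A) (A' := A') (A'' := A'') (S.square0 f hf) (S.square1 f hf)
    (S'.square0 f' hf') (S'.square1 f' hf')
    (S''.square0 (f'.comp f) hg) (S''.square1 (f'.comp f) hg)
    (c0.baseChange A) (c0.baseChange A') (c0.baseChange A'') x

end Hub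

end Fermat.Agent.T1.Red20.BcSemiComp
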