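import Mathlib
import Fermat.Agent.T1.RedIface75
import Fermat.Agent.T1.Red11.CechLine
import Fermat.Agent.T1.Red11.MapComp

/-!
# T1A (S19), REDUCTION layer, brick R-f COORD-FUN, part 1 (helper20)

`O` a DVR over the base `W`, `b : Fin g → B01`, and `hEU : CoordExistsUnique c0 O b` (brick R-d).

* `IsCoord b n y a` : `a ∈ (𝔪/𝔪ⁿ)^g` and the base change of `y` to `O/𝔪ⁿ` is the Čech class of
  `∏ (1 + aᵢ ⊗ bᵢ)`;
* `coord hEU n : J1 c0 O → (Fin g → RedIface75.Trunc O n)` : **the coordinates**; `coord_isCoord`,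
  `IsCoord.eq_coord` (uniqueness), `coord_mem`, `coord_spec`;
* `coord_one`, `coord_mul` (for a group law `F` with `GroupLawAt b n F`; polynomial form
  `coord_mul_poly`), `coord_inv` (for `InvLawAt b n N`);
* `truncMap`, `coord_compat` : `coord m y = truncMap ∘ coord n y` for `m ≤ n`;
* `coord_inj` : under `CoordInjective c0 O` (brick R-e), the coordinates of all levels determine `y`.
-/

set_option autoImplicit false
set_option linter.unusedSectionVars false

open TensorProduct

namespace Fermat.Agent.T1.Red20.CoordFun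

open Fermat.Agent.Jac Fermat.Agent.Jac.JSmooth85Alg Fermat.Agent.Jac.JGroup85Pic
open Fermat.Agent.Jac.BaseChange75 Fermat.Agent.T1.RedIface75 Fermat.Agent.T1.Red11
open scoped Fermat.Agent.Jac.BaseChange75

universe u

/-! ### `cechElt` under ring maps -/

section CechElt

variable {W B01 : Type u} [CommRing W] [CommRing B01] [Algebra W B01]

theorem cechElt_zero {R : Type u} [CommRing R] [Algebra W R] {g : ℕ} (b : Fin g → B01) :
    cechElt (W := W) (R := R) b (0 : Fin g → R) = 1 := by
  unfold cechElt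
  simp

theorem map_cechElt (A A' : Type u) [CommRing A] [CommRing A'] [Algebra W A] [Algebra W A']
    [Algebra A A'] [IsScalarTower W A A'] {g : ℕ} (b : Fin g → B01) (a : Fin g → A) :
    algebraMap (A ⊗[W] B01) (A' ⊗[W] B01) (cechElt b a) =
      cechElt b (fun i => algebraMap A A' (a i)) := by
  unfold cechElt
  rw [map_prod]
  refine Finset.prod_congr rfl fun i _ => ?_
  rw [map_add, map_one, algebraMap_left_tmul]

end CechElt

/-! ### The truncations `O/𝔪ⁿ → O/𝔪ᵐ` -/

section Trunc

variable (O : Type u) [CommRing O] [IsDomain O] [IsDiscreteValuationRing O]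

/-- The maximal ideal of `O/𝔪ⁿ`. -/
abbrev mT (n : ℕ) : Ideal (RedIface75.Trunc O n) :=
  (IsLocalRing.maximalIdeal O).map (Ideal.Quotient.mk ((IsLocalRing.maximalIdeal O) ^ n))

/-- The transition map `O/𝔪ⁿ → O/𝔪ᵐ`, `m ≤ n`. -/
def truncMap {m n : ℕ} (h : m ≤ n) : RedIface75.Trunc O n →+* RedIface75.Trunc O m :=
  Ideal.Quotient.factor (Ideal.pow_le_pow_right h)

@[simp] theorem truncMap_mk {m n : ℕ} (h : m ≤ n) (x : O) :
    truncMap O h (Ideal.Quotient.mk _ x) = Ideal.Quotient.mk _ x :=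
  Ideal.Quotient.factor_mk _ x

theorem truncMap_mem_mT {m n : ℕ} (h : m ≤ n) {x : RedIface75.Trunc O n} (hx : x ∈ mT O n) :
    truncMap O h x ∈ mT O m := by
  have h1 : (mT O n).map (truncMap O h) = mT O m := by
    unfold mT
    rw [Ideal.map_map]
    congr 1
  rw [← h1]
  exact Ideal.mem_map_of_mem _ hx

/-- `O/𝔪ᵐ` as an algebra over `O/𝔪ⁿ`, `m ≤ n` (not an instance). -/
@[instance_reducible]
def truncAlgebra {m n : ℕ} (h : m ≤ n) : Algebra (RedIface75.Trunc O n) (RedIface75.Trunc O m) :=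
  (truncMap O h).toAlgebra

theorem truncTowerO {m n : ℕ} (h : m ≤ n) :
    letI := truncAlgebra O h
    IsScalarTower O (RedIface75.Trunc O n) (RedIface75.Trunc O m) :=
  letI := truncAlgebra O h
  IsScalarTower.of_algebraMap_eq (fun x => (truncMap_mk O h x).symm)

theorem truncTowerW {W : Type u} [CommRing W] [Algebra W O] {m n : ℕ} (h : m ≤ n) :
    letI := truncAlgebra O h
    IsScalarTower W (RedIface75.Trunc O n) (RedIface75.Trunc O m) :=
  letI := truncAlgebra O h
  IsScalarTower.of_algebraMap_eq (fun x => by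
    rw [IsScalarTower.algebraMap_apply W O (RedIface75.Trunc O m),
      IsScalarTower.algebraMap_apply W O (RedIface75.Trunc O n)]
    exact (truncMap_mk O h _).symm)

end Trunc

/-! ### Coordinates -/

section Coord

variable {W B0 B1 B01 : Type u} [CommRing W] [CommRing B0] [CommRing B1] [CommRing B01]
  [Algebra W B0] [Algebra W B1] [Algebra W B01] [Algebra B0 B01] [Algebra B1 B01]
  [IsScalarTower W B0 B01] [IsScalarTower W B1 B01]
  {c0 : TwoChart W B0 B1 B01}
  {O : Type u} [CommRing O] [IsDomain O] [IsDiscreteValuationRing O] [Algebra W O]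
  {g : ℕ} (b : Fin g → B01)

/-- `a` is a system of coordinates of level `n` of the class `y`. -/
def IsCoord (n : ℕ) (y : PicX c0 O) (a : Fin g → RedIface75.Trunc O n) : Prop :=
  (∀ i, a i ∈ (IsLocalRing.maximalIdeal O).map (Ideal.Quotient.mk _)) ∧
    ∃ u : (RedIface75.Trunc O n ⊗[W] B01)ˣ, (u : RedIface75.Trunc O n ⊗[W] B01) = cechElt b a ∧
      PicX.map c0 O (RedIface75.Trunc O n) y = cechClass (c0.baseChange (RedIface75.Trunc O n)) u

variable {b}

/-- Two units with the same underlying Čech element have the same class. -/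
theorem IsCoord.map_eq {n : ℕ} {y : PicX c0 O} {a : Fin g → RedIface75.Trunc O n} (h : IsCoord b n y a)
    (u : (RedIface75.Trunc O n ⊗[W] B01)ˣ) (hu : (u : RedIface75.Trunc O n ⊗[W] B01) = cechElt b a) :
    PicX.map c0 O (RedIface75.Trunc O n) y = cechClass (c0.baseChange (RedIface75.Trunc O n)) u := by
  obtain ⟨-, u', hu', h'⟩ := h
  rw [h', Units.ext (hu'.trans hu.symm)]

variable (hEU : CoordExistsUnique c0 O b)

/-- **The coordinates of level `n`** of a class in `J̃1(O)`. -/
noncomputable def coord (n : ℕ) (y : J1 c0 O) : Fin g → RedIface75.Trunc O n :=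
  (hEU y.1 y.2 n).exists.choose

theorem coord_isCoord (n : ℕ) (y : J1 c0 O) : IsCoord b n (y : PicX c0 O) (coord hEU n y) :=
  (hEU y.1 y.2 n).exists.choose_spec

theorem IsCoord.eq_coord {n : ℕ} {y : J1 c0 O} {a : Fin g → RedIface75.Trunc O n}
    (h : IsCoord b n (y : PicX c0 O) a) : a = coord hEU n y :=
  (hEU y.1 y.2 n).unique h (coord_isCoord hEU n y)

theorem coord_mem (n : ℕ) (y : J1 c0 O) (i : Fin g) : coord hEU n y i ∈ mT O n :=
  (coord_isCoord hEU n y).1 i

theorem coord_spec (n : ℕ) (y : J1 c0 O) :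
    ∃ u : (RedIface75.Trunc O n ⊗[W] B01)ˣ, (u : RedIface75.Trunc O n ⊗[W] B01) = cechElt b (coord hEU n y) ∧
      PicX.map c0 O (RedIface75.Trunc O n) (y : PicX c0 O) = cechClass (c0.baseChange (RedIface75.Trunc O n)) u :=
  (coord_isCoord hEU n y).2

/-! ### The group structure in coordinates -/

theorem coord_one (n : ℕ) : coord hEU n (1 : J1 c0 O) = 0 := by
  symm
  apply IsCoord.eq_coord hEU
  refine ⟨fun i => Ideal.zero_mem _, 1, ?_, ?_⟩
  · rw [Units.val_one, cechElt_zero]
  · rw [Subgroup.coe_one, map_one, cechClass_one]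

variable (b) in
/-- **(GL n)**: the operation `F` on coordinates of level `n` computes the product of Čech classes. -/
def GroupLawAt (c0 : TwoChart W B0 B1 B01) (O : Type u) [CommRing O] [IsDomain O]
    [IsDiscreteValuationRing O] [Algebra W O] (n : ℕ)
    (F : (Fin g → RedIface75.Trunc O n) → (Fin g → RedIface75.Trunc O n) → (Fin g → RedIface75.Trunc O n)) : Prop :=
  ∀ a a' : Fin g → RedIface75.Trunc O n, (∀ i, a i ∈ mT O n) → (∀ i, a' i ∈ mT O n) →
    (∀ i, F a a' i ∈ mT O n) ∧
    ∀ u u' : (RedIface75.Trunc O n ⊗[W] B01)ˣ, (u : RedIface75.Trunc O n ⊗[W] B01) = cechElt b a →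
      (u' : RedIface75.Trunc O n ⊗[W] B01) = cechElt b a' →
      ∃ u'' : (RedIface75.Trunc O n ⊗[W] B01)ˣ, (u'' : RedIface75.Trunc O n ⊗[W] B01) = cechElt b (F a a') ∧
        cechClass (c0.baseChange (RedIface75.Trunc O n)) u * cechClass (c0.baseChange (RedIface75.Trunc O n)) u' =
          cechClass (c0.baseChange (RedIface75.Trunc O n)) u''

variable (b) in
/-- **(INV n)**: the operation `N` on coordinates of level `n` computes the inverse. -/
def InvLawAt (c0 : TwoChart W B0 B1 B01) (O : Type u) [CommRing O] [IsDomain O]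
    [IsDiscreteValuationRing O] [Algebra W O] (n : ℕ)
    (N : (Fin g → RedIface75.Trunc O n) → (Fin g → RedIface75.Trunc O n)) : Prop :=
  ∀ a : Fin g → RedIface75.Trunc O n, (∀ i, a i ∈ mT O n) →
    (∀ i, N a i ∈ mT O n) ∧
    ∀ u : (RedIface75.Trunc O n ⊗[W] B01)ˣ, (u : RedIface75.Trunc O n ⊗[W] B01) = cechElt b a →
      ∃ u'' : (RedIface75.Trunc O n ⊗[W] B01)ˣ, (u'' : RedIface75.Trunc O n ⊗[W] B01) = cechElt b (N a) ∧
        (cechClass (c0.baseChange (RedIface75.Trunc O n)) u)⁻¹ = cechClass (c0.baseChange (RedIface75.Trunc O n)) u''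

/-- **Additivity of the coordinates.** -/
theorem coord_mul {n : ℕ} {F : (Fin g → RedIface75.Trunc O n) → (Fin g → RedIface75.Trunc O n) → (Fin g → RedIface75.Trunc O n)}
    (hF : GroupLawAt b c0 O n F) (y y' : J1 c0 O) :
    coord hEU n (y * y') = F (coord hEU n y) (coord hEU n y') := by
  symm
  apply IsCoord.eq_coord hEU
  obtain ⟨u, hu, hy⟩ := coord_spec hEU n y
  obtain ⟨u', hu', hy'⟩ := coord_spec hEU n y'
  obtain ⟨hmem, hlaw⟩ := hF _ _ (coord_mem hEU n y) (coord_mem hEU n y')
  obtain ⟨u'', hu'', hmul⟩ := hlaw u u' hu hu'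
  refine ⟨hmem, u'', hu'', ?_⟩
  rw [Subgroup.coe_mul, map_mul, hy, hy', hmul]

/-- The coordinates of the inverse. -/
theorem coord_inv {n : ℕ} {N : (Fin g → RedIface75.Trunc O n) → (Fin g → RedIface75.Trunc O n)}
    (hN : InvLawAt b c0 O n N) (y : J1 c0 O) :
    coord hEU n y⁻¹ = N (coord hEU n y) := by
  symm
  apply IsCoord.eq_coord hEU
  obtain ⟨u, hu, hy⟩ := coord_spec hEU n y
  obtain ⟨hmem, hlaw⟩ := hN _ (coord_mem hEU n y)
  obtain ⟨u'', hu'', hinv⟩ := hlaw u hu
  refine ⟨hmem, u'', hu'', ?_⟩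
  rw [Subgroup.coe_inv, map_inv, hy, hinv]

/-- The operation on coordinates given by polynomials over `W`. -/
noncomputable def polyLaw {R : Type u} [CommRing R] [Algebra W R]
    (F : Fin g → MvPolynomial (Fin g ⊕ Fin g) W) (a a' : Fin g → R) : Fin g → R :=
  fun i => MvPolynomial.aeval (Sum.elim a a') (F i)

/-- **Additivity, polynomial form.** -/
theorem coord_mul_poly {n : ℕ} {F : Fin g → MvPolynomial (Fin g ⊕ Fin g) W}
    (hF : GroupLawAt b c0 O n (polyLaw F)) (y y' : J1 c0 O) (i : Fin g) :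
    coord hEU n (y * y') i =
      MvPolynomial.aeval (Sum.elim (coord hEU n y) (coord hEU n y')) (F i) :=
  congrFun (coord_mul hEU hF y y') i

/-! ### Compatibility in `n` -/

/-- **Compatibility of the coordinates in the level.** -/
theorem coord_compat {m n : ℕ} (h : m ≤ n) (y : J1 c0 O) :
    coord hEU m y = fun i => truncMap O h (coord hEU n y i) := by
  symm
  apply IsCoord.eq_coord hEU
  let _ := truncAlgebra O h
  have := truncTowerO O h
  have := truncTowerW (W := W) O h
  obtain ⟨u, hu, hy⟩ := coord_spec hEU n y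
  refine ⟨fun i => truncMap_mem_mT O h (coord_mem hEU n y i),
    Units.map (algebraMap (RedIface75.Trunc O n ⊗[W] B01) (RedIface75.Trunc O m ⊗[W] B01) :
      RedIface75.Trunc O n ⊗[W] B01 →* RedIface75.Trunc O m ⊗[W] B01) u, ?_, ?_⟩
  · rw [Units.coe_map, MonoidHom.coe_coe, hu, map_cechElt]
    rfl
  · rw [← PicX.map_comp c0 O (RedIface75.Trunc O n) (RedIface75.Trunc O m), hy, PicX.map_cechClass]

/-! ### Injectivity -/

/-- **The coordinates of all levels determine the class** (given brick R-e). -/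
theorem coord_inj (hInj : CoordInjective c0 O) {y y' : J1 c0 O}
    (h : ∀ n, coord hEU n y = coord hEU n y') : y = y' := by
  have key : ((y * y'⁻¹ : J1 c0 O) : PicX c0 O) = 1 := by
    apply hInj
    intro n
    obtain ⟨u, hu, hy⟩ := coord_spec hEU n y
    obtain ⟨u', hu', hy'⟩ := coord_spec hEU n y'
    have huu : u = u' := Units.ext (by rw [hu, hu', h n])
    rw [Subgroup.coe_mul, Subgroup.coe_inv, map_mul, map_inv, hy, hy', huu, mul_inv_cancel]
  have h1 : y * y'⁻¹ = 1 := Subtype.ext key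
  exact mul_inv_eq_one.mp h1

end Coord

end Fermat.Agent.T1.Red20.CoordFun
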