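import Mathlib
import Fermat.Agent.T1.Red20.CoordFun

/-!
# T1A (S19), REDUCTION layer, brick R-f COORD-FUN, part 2: functoriality in `O`  (helper20)

* `truncFun f n : O/𝔪ⁿ → O'/𝔪'ⁿ` for a local ring homomorphism `f : O → O'` of DVRs;
* `map_mem_J1`, `J1map : J̃1(O) →* J̃1(O')` for a local `W`-algebra map `O → O'`;
* `isCoord_map`, `coord_map` : `coord n (J1map y) = truncFun ∘ coord n y`.
-/

set_option autoImplicit false
set_option linter.unusedSectionVars false

open TensorProduct

namespace Fermat.Agent.T1.Red20.CoordMap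

open Fermat.Agent.Jac Fermat.Agent.Jac.JSmooth85Alg Fermat.Agent.Jac.JGroup85Pic
open Fermat.Agent.Jac.BaseChange75 Fermat.Agent.T1.RedIface75 Fermat.Agent.T1.Red11
open Fermat.Agent.T1.Red20.CoordFun
open scoped Fermat.Agent.Jac.BaseChange75

universe u

/-! ### The maps on truncations induced by a local homomorphism -/

section TruncFun

variable {O O' : Type u} [CommRing O] [IsDomain O] [IsDiscreteValuationRing O]
  [CommRing O'] [IsDomain O'] [IsDiscreteValuationRing O']
  (f : O →+* O') [IsLocalHom f]

theorem map_maximalIdeal_le : (IsLocalRing.maximalIdeal O).map f ≤ IsLocalRing.maximalIdeal O' :=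
  ((IsLocalRing.local_hom_TFAE f).out 0 2).mp ‹IsLocalHom f›

theorem maximalIdeal_pow_le_comap (n : ℕ) :
    (IsLocalRing.maximalIdeal O) ^ n ≤ ((IsLocalRing.maximalIdeal O') ^ n).comap f := by
  rw [← Ideal.map_le_iff_le_comap, Ideal.map_pow]
  exact Ideal.pow_right_mono (map_maximalIdeal_le f) n

/-- The map `O/𝔪ⁿ → O'/𝔪'ⁿ` induced by a local homomorphism. -/
def truncFun (n : ℕ) : RedIface75.Trunc O n →+* RedIface75.Trunc O' n :=
  Ideal.quotientMap _ f (maximalIdeal_pow_le_comap f n)

@[simp] theorem truncFun_mk (n : ℕ) (x : O) :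
    truncFun f n (Ideal.Quotient.mk _ x) = Ideal.Quotient.mk _ (f x) :=
  Ideal.quotientMap_mk

theorem truncFun_mem_mT {n : ℕ} {x : RedIface75.Trunc O n} (hx : x ∈ mT O n) :
    truncFun f n x ∈ mT O' n := by
  obtain ⟨y, hy, rfl⟩ := (Ideal.mem_map_iff_of_surjective _ Ideal.Quotient.mk_surjective).1 hx
  rw [truncFun_mk]
  exact Ideal.mem_map_of_mem _ (map_maximalIdeal_le f (Ideal.mem_map_of_mem f hy))

/-- `truncFun` commutes with the transition maps. -/
theorem truncMap_truncFun {m n : ℕ} (h : m ≤ n) (x : RedIface75.Trunc O n) :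
    truncMap O' h (truncFun f n x) = truncFun f m (truncMap O h x) := by
  obtain ⟨y, rfl⟩ := Ideal.Quotient.mk_surjective x
  rw [truncFun_mk, truncMap_mk, truncMap_mk, truncFun_mk]

end TruncFun

/-! ### Functoriality for local `W`-algebra maps `O → O'` -/

section Linear

variable {W B0 B1 B01 : Type u} [CommRing W] [CommRing B0] [CommRing B1] [CommRing B01]
  [Algebra W B0] [Algebra W B1] [Algebra W B01] [Algebra B0 B01] [Algebra B1 B01]
  [IsScalarTower W B0 B01] [IsScalarTower W B1 B01]
  {c0 : TwoChart W B0 B1 B01}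
  {O O' : Type u} [CommRing O] [IsDomain O] [IsDiscreteValuationRing O] [Algebra W O]
  [CommRing O'] [IsDomain O'] [IsDiscreteValuationRing O'] [Algebra W O']
  [Algebra O O'] [IsScalarTower W O O'] [IsLocalHom (algebraMap O O')]
  {g : ℕ} {b : Fin g → B01}

/-- `J̃1` is stable under base change along a local map. -/
theorem map_mem_J1 {y : PicX c0 O} (hy : y ∈ J1 c0 O) : PicX.map c0 O O' y ∈ J1 c0 O' := by
  have h1 : PicX.map c0 O (IsLocalRing.ResidueField O) y = 1 := hy
  change PicX.map c0 O' (IsLocalRing.ResidueField O') (PicX.map c0 O O' y) = 1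
  rw [PicX.map_comp c0 O O' (IsLocalRing.ResidueField O'),
    ← PicX.map_comp c0 O (IsLocalRing.ResidueField O) (IsLocalRing.ResidueField O'), h1, map_one]

variable (c0 O O') in
/-- The homomorphism `J̃1(O) → J̃1(O')`. -/
noncomputable def J1map : J1 c0 O →* J1 c0 O' :=
  ((PicX.map c0 O O').comp (J1 c0 O).subtype).codRestrict (J1 c0 O') fun y => map_mem_J1 y.2

@[simp] theorem coe_J1map (y : J1 c0 O) :
    ((J1map c0 O O' y : J1 c0 O') : PicX c0 O') = PicX.map c0 O O' (y : PicX c0 O) := rfl

variable (O O') in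
/-- `O'/𝔪'ⁿ` as an algebra over `O/𝔪ⁿ` (not an instance). -/
@[instance_reducible]
def truncFunAlgebra (n : ℕ) : Algebra (RedIface75.Trunc O n) (RedIface75.Trunc O' n) :=
  (truncFun (algebraMap O O') n).toAlgebra

variable (O O') in
theorem truncFunTowerO (n : ℕ) :
    letI := truncFunAlgebra O O' n
    IsScalarTower O (RedIface75.Trunc O n) (RedIface75.Trunc O' n) :=
  letI := truncFunAlgebra O O' n
  IsScalarTower.of_algebraMap_eq (fun x => (truncFun_mk (algebraMap O O') n x).symm)

variable (W O O') in
theorem truncFunTowerW (n : ℕ) :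
    letI := truncFunAlgebra O O' n
    IsScalarTower W (RedIface75.Trunc O n) (RedIface75.Trunc O' n) :=
  letI := truncFunAlgebra O O' n
  IsScalarTower.of_algebraMap_eq (fun x => by
    rw [IsScalarTower.algebraMap_apply W O (RedIface75.Trunc O n),
      IsScalarTower.algebraMap_apply W O' (RedIface75.Trunc O' n),
      IsScalarTower.algebraMap_apply W O O']
    exact (truncFun_mk (algebraMap O O') n _).symm)

/-- Coordinates are transported by base change along `O → O'`. -/
theorem isCoord_map {n : ℕ} {y : PicX c0 O} {a : Fin g → RedIface75.Trunc O n}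
    (h : IsCoord b n y a) :
    IsCoord b n (PicX.map c0 O O' y) (fun i => truncFun (algebraMap O O') n (a i)) := by
  let _ := truncFunAlgebra O O' n
  have := truncFunTowerO O O' n
  have := truncFunTowerW W O O' n
  obtain ⟨hmem, u, hu, hy⟩ := h
  refine ⟨fun i => truncFun_mem_mT _ (hmem i),
    Units.map (algebraMap (RedIface75.Trunc O n ⊗[W] B01) (RedIface75.Trunc O' n ⊗[W] B01) :
      RedIface75.Trunc O n ⊗[W] B01 →* RedIface75.Trunc O' n ⊗[W] B01) u, ?_, ?_⟩
  · rw [Units.coe_map, MonoidHom.coe_coe, hu, map_cechElt]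
    rfl
  · rw [PicX.map_comp c0 O O' (RedIface75.Trunc O' n),
      ← PicX.map_comp c0 O (RedIface75.Trunc O n) (RedIface75.Trunc O' n), hy, PicX.map_cechClass]

/-- **Functoriality of the coordinates** in the DVR. -/
theorem coord_map (hEU : CoordExistsUnique c0 O b) (hEU' : CoordExistsUnique c0 O' b) (n : ℕ)
    (y : J1 c0 O) :
    coord hEU' n (J1map c0 O O' y) = fun i => truncFun (algebraMap O O') n (coord hEU n y i) :=
  (IsCoord.eq_coord hEU' (y := J1map c0 O O' y) (isCoord_map (coord_isCoord hEU n y))).symm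

end Linear

/-! ### Semilinear functoriality (Galois action) -/

section Semi

variable {W B0 B1 B01 : Type u} [CommRing W] [CommRing B0] [CommRing B1] [CommRing B01]
  [Algebra W B0] [Algebra W B1] [Algebra W B01] [Algebra B0 B01] [Algebra B1 B01]
  [IsScalarTower W B0 B01] [IsScalarTower W B1 B01]
  {c0 : TwoChart W B0 B1 B01} (S : ChartAut c0)

/-- A ring homomorphism semilinear over `σW` sends `algebraMap w` to `algebraMap (σW w)`. -/
theorem semi_algebraMap {A A' : Type u} [CommRing A] [CommRing A'] [Algebra W A] [Algebra W A']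
    (σW : W →+* W) (f : A →+* A') (hf : ∀ (w : W) (a : A), f (w • a) = σW w • f a) (w : W) :
    f (algebraMap W A w) = algebraMap W A' (σW w) := by
  rw [Algebra.algebraMap_eq_smul_one, hf, map_one, ← Algebra.algebraMap_eq_smul_one]

/-- Conversely. -/
theorem semi_of_algebraMap {A A' : Type u} [CommRing A] [CommRing A'] [Algebra W A]
    [Algebra W A'] (σW : W →+* W) (f : A →+* A')
    (hf : ∀ w : W, f (algebraMap W A w) = algebraMap W A' (σW w)) (w : W) (a : A) :
    f (w • a) = σW w • f a := by
  rw [Algebra.smul_def, map_mul, hf, ← Algebra.smul_def]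

/-- The image of a Čech element under a semilinear tensor map fixing the `bᵢ`. -/
theorem semiTensor_cechElt {A A' : Type u} [CommRing A] [CommRing A'] [Algebra W A]
    [Algebra W A'] (f : A →+* A') (hf : ∀ (w : W) (a : A), f (w • a) = S.σW w • f a)
    {g : ℕ} {b : Fin g → B01} (hb : ∀ i, S.σ01 (b i) = b i) (a : Fin g → A) :
    semiTensor S.σW f S.σ01 hf S.semi01 (cechElt b a) = cechElt b (fun i => f (a i)) := by
  unfold cechElt
  rw [map_prod]
  refine Finset.prod_congr rfl fun i _ => ?_
  rw [map_add, map_one, semiTensor_tmul, hb]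

variable {O O' : Type u} [CommRing O] [IsDomain O] [IsDiscreteValuationRing O] [Algebra W O]
  [CommRing O'] [IsDomain O'] [IsDiscreteValuationRing O'] [Algebra W O']
  (f : O →+* O') [IsLocalHom f] (hf : ∀ (w : W) (a : O), f (w • a) = S.σW w • f a)
  {g : ℕ} {b : Fin g → B01}

include hf in
/-- The induced maps on truncations are semilinear. -/
theorem truncFun_semi (n : ℕ) (w : W) (x : RedIface75.Trunc O n) :
    truncFun f n (w • x) = S.σW w • truncFun f n x := by
  refine semi_of_algebraMap S.σW (truncFun f n) (fun w => ?_) w x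
  rw [IsScalarTower.algebraMap_apply W O (RedIface75.Trunc O n),
    IsScalarTower.algebraMap_apply W O' (RedIface75.Trunc O' n)]
  exact (truncFun_mk f n _).trans (congrArg _ (semi_algebraMap S.σW f hf w))

include hf in
/-- The induced map on residue fields is semilinear. -/
theorem residueMap_semi (w : W) (x : IsLocalRing.ResidueField O) :
    IsLocalRing.ResidueField.map f (w • x) = S.σW w • IsLocalRing.ResidueField.map f x := by
  refine semi_of_algebraMap S.σW (IsLocalRing.ResidueField.map f) (fun w => ?_) w x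
  rw [IsScalarTower.algebraMap_apply W O (IsLocalRing.ResidueField O),
    IsScalarTower.algebraMap_apply W O' (IsLocalRing.ResidueField O')]
  exact (IsLocalRing.ResidueField.map_residue f _).trans
    (congrArg _ (semi_algebraMap S.σW f hf w))

/-- The mixed square (semilinear base change commutes with reduction), as a hypothesis. -/
def ResSquare : Prop :=
  ∀ y : PicX c0 O,
    PicX.map c0 O' (IsLocalRing.ResidueField O') (PicX.mapSemi S f hf y) =
      PicX.mapSemi S (IsLocalRing.ResidueField.map f) (residueMap_semi S f hf)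
        (PicX.map c0 O (IsLocalRing.ResidueField O) y)

/-- The mixed square (semilinear base change commutes with truncation), as a hypothesis. -/
def TruncSquare (n : ℕ) : Prop :=
  ∀ y : PicX c0 O,
    PicX.map c0 O' (RedIface75.Trunc O' n) (PicX.mapSemi S f hf y) =
      PicX.mapSemi S (truncFun f n) (truncFun_semi S f hf n)
        (PicX.map c0 O (RedIface75.Trunc O n) y)

variable {S f hf}

/-- `J̃1` is stable under semilinear base change along a local homomorphism. -/
theorem mapSemi_mem_J1_of (hsq : ResSquare S f hf) {y : PicX c0 O} (hy : y ∈ J1 c0 O) :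
    PicX.mapSemi S f hf y ∈ J1 c0 O' := by
  have h1 : PicX.map c0 O (IsLocalRing.ResidueField O) y = 1 := hy
  change PicX.map c0 O' (IsLocalRing.ResidueField O') (PicX.mapSemi S f hf y) = 1
  rw [hsq y, h1, map_one]

/-- The semilinear homomorphism `J̃1(O) → J̃1(O')`. -/
noncomputable def J1mapSemi_of (hsq : ResSquare S f hf) : J1 c0 O →* J1 c0 O' :=
  ((PicX.mapSemi S f hf).comp (J1 c0 O).subtype).codRestrict (J1 c0 O')
    fun y => mapSemi_mem_J1_of hsq y.2

@[simp] theorem coe_J1mapSemi_of (hsq : ResSquare S f hf) (y : J1 c0 O) :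
    ((J1mapSemi_of hsq y : J1 c0 O') : PicX c0 O') = PicX.mapSemi S f hf (y : PicX c0 O) := rfl

/-- Coordinates are transported by semilinear base change. -/
theorem isCoord_mapSemi_of {n : ℕ} (hsq : TruncSquare S f hf n) (hb : ∀ i, S.σ01 (b i) = b i)
    {y : PicX c0 O} {a : Fin g → RedIface75.Trunc O n} (h : IsCoord b n y a) :
    IsCoord b n (PicX.mapSemi S f hf y) (fun i => truncFun f n (a i)) := by
  obtain ⟨hmem, u, hu, hy⟩ := h
  refine ⟨fun i => truncFun_mem_mT _ (hmem i),
    Units.map (semiTensor S.σW (truncFun f n) S.σ01 (truncFun_semi S f hf n) S.semi01 :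
      RedIface75.Trunc O n ⊗[W] B01 →* RedIface75.Trunc O' n ⊗[W] B01) u, ?_, ?_⟩
  · rw [Units.coe_map, MonoidHom.coe_coe, hu, semiTensor_cechElt S _ _ hb]
  · rw [hsq y, hy, PicX.mapSemi_cechClass]

/-- **Equivariance of the coordinates** under semilinear base change. -/
theorem coord_semi_of (hres : ResSquare S f hf) {n : ℕ} (hsq : TruncSquare S f hf n)
    (hb : ∀ i, S.σ01 (b i) = b i)
    (hEU : CoordExistsUnique c0 O b) (hEU' : CoordExistsUnique c0 O' b) (y : J1 c0 O) :
    coord hEU' n (J1mapSemi_of hres y) = fun i => truncFun f n (coord hEU n y i) :=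
  (IsCoord.eq_coord hEU' (y := J1mapSemi_of hres y)
    (isCoord_mapSemi_of hsq hb (coord_isCoord hEU n y))).symm

end Semi

end Fermat.Agent.T1.Red20.CoordMap
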