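import Mathlib
import Fermat.Agent.T1.Red20.CoordMap
import Fermat.Agent.T1.Red20.BcSquare

/-!
# T1A (S19), REDUCTION layer, brick R-f COORD-FUN, part 3: Galois equivariance  (helper20)

`S : ChartAut c0`, `f : O →+* O'` a local ring homomorphism of DVRs, semilinear over `S.σW`
(in the application `O = O'` = integers of a Galois number field localised at the place,
`f = σ|_O` for `σ` in the decomposition group).  Unconditional versions of part 2:

* `resSquare`, `truncSquare` : the mixed squares;
* `mapSemi_mem_J1` : `J̃1` is stable under `PicX.mapSemi S f`;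
* `J1mapSemi : J̃1(O) →* J̃1(O')`;
* `isCoord_mapSemi`, `coord_semi` : `coord n (J1mapSemi y) = truncFun f n ∘ coord n y` when
  `S.σ01 (b i) = b i`.
-/

set_option autoImplicit false
set_option linter.unusedSectionVars false

open TensorProduct

namespace Fermat.Agent.T1.Red20.CoordSemi

open Fermat.Agent.Jac Fermat.Agent.Jac.JSmooth85Alg Fermat.Agent.Jac.JGroup85Pic
open Fermat.Agent.Jac.BaseChange75 Fermat.Agent.T1.RedIface75 Fermat.Agent.T1.Red11
open Fermat.Agent.T1.Red20.CoordFun Fermat.Agent.T1.Red20.CoordMap
open Fermat.Agent.T1.Red20.BcSquare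
open scoped Fermat.Agent.Jac.BaseChange75

universe u

variable {W B0 B1 B01 : Type u} [CommRing W] [CommRing B0] [CommRing B1] [CommRing B01]
  [Algebra W B0] [Algebra W B1] [Algebra W B01] [Algebra B0 B01] [Algebra B1 B01]
  [IsScalarTower W B0 B01] [IsScalarTower W B1 B01]
  {c0 : TwoChart W B0 B1 B01} (S : ChartAut c0)
  {O O' : Type u} [CommRing O] [IsDomain O] [IsDiscreteValuationRing O] [Algebra W O]
  [CommRing O'] [IsDomain O'] [IsDiscreteValuationRing O'] [Algebra W O']
  (f : O →+* O') [IsLocalHom f] (hf : ∀ (w : W) (a : O), f (w • a) = S.σW w • f a)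
  {g : ℕ} {b : Fin g → B01}

/-- The mixed square with the residue fields. -/
theorem resSquare : ResSquare S f hf := fun y =>
  PicX.map_mapSemi_sq S f hf (IsLocalRing.ResidueField.map f) (residueMap_semi S f hf)
    (RingHom.ext fun x => IsLocalRing.ResidueField.map_residue f x) y

/-- The mixed square with the truncations. -/
theorem truncSquare (n : ℕ) : TruncSquare S f hf n := fun y =>
  PicX.map_mapSemi_sq S f hf (truncFun f n) (truncFun_semi S f hf n)
    (RingHom.ext fun x => truncFun_mk f n x) y

/-- **`J̃1` is stable under semilinear base change** along a local homomorphism. -/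
theorem mapSemi_mem_J1 {y : PicX c0 O} (hy : y ∈ J1 c0 O) : PicX.mapSemi S f hf y ∈ J1 c0 O' :=
  mapSemi_mem_J1_of (resSquare S f hf) hy

/-- The semilinear homomorphism `J̃1(O) → J̃1(O')`. -/
noncomputable def J1mapSemi : J1 c0 O →* J1 c0 O' := J1mapSemi_of (resSquare S f hf)

@[simp] theorem coe_J1mapSemi (y : J1 c0 O) :
    ((J1mapSemi S f hf y : J1 c0 O') : PicX c0 O') = PicX.mapSemi S f hf (y : PicX c0 O) := rfl

variable {S f hf}

/-- Coordinates are transported by semilinear base change. -/
theorem isCoord_mapSemi {n : ℕ} (hb : ∀ i, S.σ01 (b i) = b i)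
    {y : PicX c0 O} {a : Fin g → RedIface75.Trunc O n} (h : IsCoord b n y a) :
    IsCoord b n (PicX.mapSemi S f hf y) (fun i => truncFun f n (a i)) :=
  isCoord_mapSemi_of (truncSquare S f hf n) hb h

/-- **Equivariance of the coordinates** under semilinear base change. -/
theorem coord_semi (hb : ∀ i, S.σ01 (b i) = b i)
    (hEU : CoordExistsUnique c0 O b) (hEU' : CoordExistsUnique c0 O' b) (n : ℕ) (y : J1 c0 O) :
    coord hEU' n (J1mapSemi S f hf y) = fun i => truncFun f n (coord hEU n y i) :=
  coord_semi_of (resSquare S f hf) (truncSquare S f hf n) hb hEU hEU' y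

end Fermat.Agent.T1.Red20.CoordSemi
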