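import Mathlib
import Fermat.Agent.T1.Red20.CoordMap

/-!
# T1A (S19), G9a: from truncated coordinates to representatives and congruences  (helper20)

Pure commutative algebra on a DVR `O` with `𝔪 ^ (e n) = (ℓ ^ n)`, embedded in a ring `Q` by
`j : O →+* Q` (application: `O = AK A L`, `Q = ℚ̄`).  A *coordinate family* is
`t : ∀ n, X → Fin g → O/𝔪ⁿ` with values in `𝔪/𝔪ⁿ`, compatible with the transition maps
(application: `X = J̃1`, `t = Red20.CoordFun.coord` or `RedFinal75.coordL`).

* `Congr j ℓ n a b` : `∃ z ∈ j.range, a - b = ℓ ^ n * z` (`= Assembly41.CongrMod ℓ j.range n a b`);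
* `congr_iff` : `Congr j ℓ n (j a) (j b) ↔ mk a = mk b` in `O/𝔪^(e n)` (under
  `hpow : x ∈ 𝔪^(e n) ↔ ∃ z, x = ℓ^n z`, which follows from `span {ℓ} = 𝔪^e`: `hpow_of_span`);
* `rep x` : a representative in `𝔪` of `x ∈ 𝔪/𝔪ⁿ`; `cRep j e t n x i := j (rep (t (e n) x i))`;
* `cRep_mem`, `cRep_small`, `cRep_compat`, `cRep_equiv`, `cRep_add` (`eval₂` form) and
  `cRep_add_aeval` (coefficients in the subring `jW.range`), `cRep_inj`: the fields `c_mem`,
  `c_small`, `c_compat`, `c_equiv`, `add_law`, `c_inj` of `Assembly41.ModCoordData` in congruence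
  form.
-/

set_option autoImplicit false
set_option linter.unusedSectionVars false

namespace Fermat.Agent.T1.Red20.Reps

open Fermat.Agent.T1.RedIface75 Fermat.Agent.T1.Red20.CoordFun Fermat.Agent.T1.Red20.CoordMap

universe u v w

section Dict

variable {O : Type u} [CommRing O] [IsDomain O] [IsDiscreteValuationRing O]
  {Q : Type v} [CommRing Q] (j : O →+* Q) (ℓ : ℕ)

/-- Congruence modulo `ℓ ^ n • j(O)` in `Q`. -/
def Congr (n : ℕ) (a b : Q) : Prop := ∃ z ∈ j.range, a - b = (ℓ : Q) ^ n * z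

theorem Congr.refl (n : ℕ) (a : Q) : Congr j ℓ n a a :=
  ⟨0, Subring.zero_mem _, by simp⟩

theorem Congr.symm {n : ℕ} {a b : Q} (h : Congr j ℓ n a b) : Congr j ℓ n b a := by
  obtain ⟨z, hz, h⟩ := h
  exact ⟨-z, Subring.neg_mem _ hz, by rw [mul_neg, ← h, neg_sub]⟩

theorem Congr.trans {n : ℕ} {a b c : Q} (h : Congr j ℓ n a b) (h' : Congr j ℓ n b c) :
    Congr j ℓ n a c := by
  obtain ⟨z, hz, h⟩ := h
  obtain ⟨z', hz', h'⟩ := h'
  exact ⟨z + z', Subring.add_mem _ hz hz', by rw [mul_add, ← h, ← h', sub_add_sub_cancel]⟩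

theorem Congr.of_eq {n : ℕ} {a b : Q} (h : a = b) : Congr j ℓ n a b := h ▸ Congr.refl j ℓ n a

variable {j} (hj : Function.Injective j) {e : ℕ}

/-- `span {ℓ} = 𝔪 ^ e` gives the divisibility form of the powers `𝔪 ^ (e n)`. -/
theorem hpow_of_span (he : Ideal.span {(ℓ : O)} = (IsLocalRing.maximalIdeal O) ^ e)
    (x : O) (n : ℕ) :
    x ∈ (IsLocalRing.maximalIdeal O) ^ (e * n) ↔ ∃ z : O, x = (ℓ : O) ^ n * z := by
  rw [pow_mul, ← he, Ideal.span_singleton_pow, Ideal.mem_span_singleton']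
  exact ⟨fun ⟨z, h⟩ => ⟨z, by rw [← h, mul_comm]⟩, fun ⟨z, h⟩ => ⟨z, by rw [h, mul_comm]⟩⟩

variable (hpow : ∀ (x : O) (n : ℕ),
  x ∈ (IsLocalRing.maximalIdeal O) ^ (e * n) ↔ ∃ z : O, x = (ℓ : O) ^ n * z)

include hj hpow in
/-- **The dictionary**: congruence modulo `ℓ ^ n` of images = equality in `O/𝔪^(e n)`. -/
theorem congr_iff (n : ℕ) (a b : O) :
    Congr j ℓ n (j a) (j b) ↔
      (Ideal.Quotient.mk ((IsLocalRing.maximalIdeal O) ^ (e * n)) a : RedIface75.Trunc O (e * n)) =
        Ideal.Quotient.mk _ b := by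
  rw [Ideal.Quotient.eq, hpow]
  constructor
  · rintro ⟨z, ⟨z', rfl⟩, h⟩
    refine ⟨z', hj ?_⟩
    rw [map_mul, map_pow, map_natCast, map_sub, h]
  · rintro ⟨z', h⟩
    refine ⟨j z', ⟨z', rfl⟩, ?_⟩
    rw [← map_sub, h, map_mul, map_pow, map_natCast]

end Dict

/-! ### Representatives -/

section Rep

variable {O : Type u} [CommRing O] [IsDomain O] [IsDiscreteValuationRing O]

theorem exists_rep {n : ℕ} {x : RedIface75.Trunc O n} (hx : x ∈ mT O n) :
    ∃ r ∈ IsLocalRing.maximalIdeal O, (Ideal.Quotient.mk _ r : RedIface75.Trunc O n) = x :=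
  (Ideal.mem_map_iff_of_surjective _ Ideal.Quotient.mk_surjective).1 hx

open Classical in
/-- A representative in `𝔪` of an element of `𝔪/𝔪ⁿ` (`0` outside `𝔪/𝔪ⁿ`). -/
noncomputable def rep {n : ℕ} (x : RedIface75.Trunc O n) : O :=
  if hx : x ∈ mT O n then (exists_rep hx).choose else 0

theorem rep_mem {n : ℕ} (x : RedIface75.Trunc O n) : rep x ∈ IsLocalRing.maximalIdeal O := by
  unfold rep
  split_ifs with hx
  · exact (exists_rep hx).choose_spec.1
  · exact Ideal.zero_mem _

theorem mk_rep {n : ℕ} {x : RedIface75.Trunc O n} (hx : x ∈ mT O n) :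
    (Ideal.Quotient.mk _ (rep x) : RedIface75.Trunc O n) = x := by
  unfold rep
  rw [dif_pos hx]
  exact (exists_rep hx).choose_spec.2

end Rep

/-! ### Coordinate families -/

section Family

variable {O : Type u} [CommRing O] [IsDomain O] [IsDiscreteValuationRing O]
  {Q : Type v} [CommRing Q] (j : O →+* Q) (ℓ : ℕ) (e : ℕ)
  {X : Type w} {g : ℕ} (t : ∀ n : ℕ, X → Fin g → RedIface75.Trunc O n)

/-- The representatives of the coordinates of level `e n`, in `Q`. -/
noncomputable def cRep (n : ℕ) (x : X) (i : Fin g) : Q := j (rep (t (e * n) x i))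

theorem cRep_mem (n : ℕ) (x : X) (i : Fin g) : cRep j e t n x i ∈ j.range := ⟨_, rfl⟩

/-- `c_small`: the representatives are images of elements of `𝔪`. -/
theorem cRep_small (n : ℕ) (x : X) (i : Fin g) :
    ∃ r ∈ IsLocalRing.maximalIdeal O, cRep j e t n x i = j r := ⟨_, rep_mem _, rfl⟩

variable {j ℓ e t} (hj : Function.Injective j)
  (hpow : ∀ (x : O) (n : ℕ),
    x ∈ (IsLocalRing.maximalIdeal O) ^ (e * n) ↔ ∃ z : O, x = (ℓ : O) ^ n * z)
  (t_mem : ∀ n x i, t n x i ∈ mT O n)

include hj hpow t_mem in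
/-- Congruences between representatives and arbitrary lifts. -/
theorem congr_cRep_iff (n : ℕ) (x : X) (i : Fin g) (a : O) :
    Congr j ℓ n (cRep j e t n x i) (j a) ↔
      t (e * n) x i = (Ideal.Quotient.mk _ a : RedIface75.Trunc O (e * n)) := by
  unfold cRep
  rw [congr_iff ℓ hj hpow, mk_rep (t_mem _ _ _)]

variable (t_compat : ∀ {m n : ℕ} (h : m ≤ n) (x : X) (i : Fin g),
  t m x i = truncMap O h (t n x i))

include hj hpow t_mem t_compat in
/-- `c_compat`. -/
theorem cRep_compat (n : ℕ) (x : X) (i : Fin g) :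
    Congr j ℓ n (cRep j e t (n + 1) x i) (cRep j e t n x i) := by
  apply Congr.symm
  show Congr j ℓ n (cRep j e t n x i) (j (rep (t (e * (n + 1)) x i)))
  rw [congr_cRep_iff hj hpow t_mem]
  have h : e * n ≤ e * (n + 1) := Nat.mul_le_mul_left e (Nat.le_succ n)
  rw [t_compat h x i, ← truncMap_mk O h, mk_rep (t_mem _ _ _)]

include hj hpow t_mem in
/-- `c_equiv`: if the coordinates of `x'` are the images of those of `x` under a local
homomorphism `f` which `j` intertwines with `ρ`, then the representatives are congruent. -/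
theorem cRep_equiv (f : O →+* O) [IsLocalHom f] (ρ : Q →+* Q) (hρ : ∀ a, ρ (j a) = j (f a))
    (n : ℕ) (x x' : X) (i : Fin g)
    (ht : t (e * n) x' i = truncFun f (e * n) (t (e * n) x i)) :
    Congr j ℓ n (cRep j e t n x' i) (ρ (cRep j e t n x i)) := by
  have h1 : ρ (cRep j e t n x i) = j (f (rep (t (e * n) x i))) := hρ _
  rw [h1, congr_cRep_iff hj hpow t_mem, ht, ← truncFun_mk, mk_rep (t_mem _ _ _)]

include hj hpow t_mem in
/-- `add_law`, `eval₂` form. -/
theorem cRep_add {W : Type u} [CommRing W] [Algebra W O] (jW : W →+* Q)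
    (hjW : ∀ w, j (algebraMap W O w) = jW w) (F : MvPolynomial (Fin g ⊕ Fin g) W)
    (n : ℕ) (x y xy : X) (i : Fin g)
    (ht : t (e * n) xy i =
      MvPolynomial.aeval (Sum.elim (t (e * n) x) (t (e * n) y)) F) :
    Congr j ℓ n (cRep j e t n xy i)
      (MvPolynomial.eval₂ jW (Sum.elim (cRep j e t n x) (cRep j e t n y)) F) := by
  have h1 : MvPolynomial.eval₂ jW (Sum.elim (cRep j e t n x) (cRep j e t n y)) F =
      j (MvPolynomial.aeval
        (Sum.elim (fun i => rep (t (e * n) x i)) (fun i => rep (t (e * n) y i))) F) := by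
    rw [MvPolynomial.aeval_def, MvPolynomial.hom_eval₂]
    congr 1
    · exact (RingHom.ext hjW).symm
    · funext s
      cases s <;> rfl
  rw [h1, congr_cRep_iff hj hpow t_mem, ht]
  have h2 : ∀ p : MvPolynomial (Fin g ⊕ Fin g) W,
      (Ideal.Quotient.mk ((IsLocalRing.maximalIdeal O) ^ (e * n))
        (MvPolynomial.aeval
          (Sum.elim (fun i => rep (t (e * n) x i)) (fun i => rep (t (e * n) y i))) p) :
        RedIface75.Trunc O (e * n)) =
      MvPolynomial.aeval (Sum.elim (t (e * n) x) (t (e * n) y)) p := by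
    intro p
    have : (Sum.elim (t (e * n) x) (t (e * n) y) : Fin g ⊕ Fin g → RedIface75.Trunc O (e * n)) =
        fun s => Ideal.Quotient.mkₐ W ((IsLocalRing.maximalIdeal O) ^ (e * n))
          (Sum.elim (fun i => rep (t (e * n) x i)) (fun i => rep (t (e * n) y i)) s) := by
      funext s
      cases s
      · exact (mk_rep (t_mem _ _ _)).symm
      · exact (mk_rep (t_mem _ _ _)).symm
    rw [this]
    exact MvPolynomial.comp_aeval_apply _
      (Ideal.Quotient.mkₐ W ((IsLocalRing.maximalIdeal O) ^ (e * n))) p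
  exact (h2 F).symm

theorem aeval_map_rangeRestrict {W : Type u} [CommRing W] {σ : Type*} (jW : W →+* Q)
    (v : σ → Q) (F : MvPolynomial σ W) :
    MvPolynomial.aeval v (MvPolynomial.map jW.rangeRestrict F) = MvPolynomial.eval₂ jW v F := by
  rw [MvPolynomial.aeval_def, MvPolynomial.eval₂_map]
  rfl

include hj hpow t_mem in
/-- `add_law`, in the form of `Assembly41.ModCoordData`: coefficients in the subring
`W0 := jW.range` of `Q`. -/
theorem cRep_add_aeval {W : Type u} [CommRing W] [Algebra W O] (jW : W →+* Q)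
    (hjW : ∀ w, j (algebraMap W O w) = jW w) (F : Fin g → MvPolynomial (Fin g ⊕ Fin g) W)
    (n : ℕ) (x y xy : X)
    (ht : ∀ i, t (e * n) xy i =
      MvPolynomial.aeval (Sum.elim (t (e * n) x) (t (e * n) y)) (F i)) (i : Fin g) :
    Congr j ℓ n (cRep j e t n xy i)
      (MvPolynomial.aeval (Sum.elim (cRep j e t n x) (cRep j e t n y))
        (MvPolynomial.map jW.rangeRestrict (F i))) := by
  rw [aeval_map_rangeRestrict]
  exact cRep_add hj hpow t_mem jW hjW (F i) n x y xy i (ht i)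

include hj hpow t_mem t_compat in
/-- `c_inj`: the representatives modulo `ℓ ^ n`, all `n`, determine the coordinates of all
levels. -/
theorem cRep_inj (he1 : 1 ≤ e) {x y : X}
    (h : ∀ n i, Congr j ℓ n (cRep j e t n x i) (cRep j e t n y i)) (n : ℕ) : t n x = t n y := by
  funext i
  have h1 : t (e * n) x i = t (e * n) y i := by
    have := (congr_cRep_iff hj hpow t_mem n x i _).1 (h n i)
    rw [this, mk_rep (t_mem _ _ _)]
  have hn : n ≤ e * n := Nat.le_mul_of_pos_left n he1
  rw [t_compat hn x i, t_compat hn y i, h1]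

end Family

end Fermat.Agent.T1.Red20.Reps
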