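import Mathlib
import Fermat.Agent.T1.Assembly41.HubToMod
import Fermat.Agent.T1.Red20.Reps

/-!
# T1A (S19), brick G9a-C REPS: hub data give arithmetic local analytic group data  (helper20)

`HubData.nonempty_modCoordData : HubData ℓ c0 b O L J M actM → Nonempty (ModCoordData ℓ J M actM)`.

The coordinates `c n x i ∈ ℚ̄` are the images under `jL ∘ algebraMap O L` of lifts IN `𝔪` of the
truncated coordinates `coord hEU (e n) (extO x) i ∈ 𝔪/𝔪^(e n)`; all fields are instances of the
abstract lemmas of `Red20/Reps.lean`.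
-/

set_option autoImplicit false
set_option linter.unusedSectionVars false

noncomputable section

namespace Fermat.Agent.T1.Assembly41

open Fermat.Agent.Jac Fermat.Agent.T1.RedIface75 Fermat.Agent.TW.B5.Iface
open Fermat.Agent.T1.Red20.CoordFun Fermat.Agent.T1.Red20.CoordMap
open Fermat.Agent.T1.Red20.CoordSemi Fermat.Agent.T1.AlgIface47
open Fermat.Agent.T1.Red20.Reps

variable {ℓ : ℕ} [Fact ℓ.Prime]
variable {W B0 B1 B01 : Type} [CommRing W] [CommRing B0] [CommRing B1] [CommRing B01]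
  [Algebra W B0] [Algebra W B1] [Algebra W B01] [Algebra B0 B01] [Algebra B1 B01]
  [IsScalarTower W B0 B01] [IsScalarTower W B1 B01]
  {c0 : TwoChart W B0 B1 B01} {g : ℕ} {b : Fin g → B01}
  {O L : Type} [CommRing O] [IsDomain O] [IsDiscreteValuationRing O] [Algebra W O]
  [Field L] [Algebra W L] [Algebra O L] [IsScalarTower W O L] [IsFractionRing O L]
  {J M : Type} [AddCommGroup J] [AddCommGroup M] {actM : Gp ℓ → M → M}
  (D : HubData ℓ c0 b O L J M actM)

namespace HubData

/-- The embedding `O → ℚ̄`. -/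
def jO : O →+* Qb := D.jL.comp (algebraMap O L)

/-- The embedding `W → ℚ̄`. -/
def jW : W →+* Qb := D.jL.comp (algebraMap W L)

theorem jO_injective : Function.Injective D.jO :=
  D.jL.injective.comp (IsFractionRing.injective O L)

theorem jO_algebraMap (w : W) : D.jO (algebraMap W O w) = D.jW w := by
  show D.jL (algebraMap O L (algebraMap W O w)) = D.jL (algebraMap W L w)
  rw [← IsScalarTower.algebraMap_apply]

/-- `𝔪 ^ (e n) = (ℓ ^ n)`, elementwise. -/
theorem hpow (x : O) (n : ℕ) :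
    x ∈ IsLocalRing.maximalIdeal O ^ (D.e * n) ↔ ∃ z : O, x = ((ℓ : ℕ) : O) ^ n * z := by
  refine ⟨D.div_pow x n, ?_⟩
  rintro ⟨z, rfl⟩
  rw [D.mem_pow, map_mul, map_mul, map_mul, map_pow, map_pow, map_pow, map_natCast, map_natCast,
    map_natCast, norm_mul, norm_pow]
  exact mul_le_of_le_one_right (pow_nonneg (norm_nonneg _) _) (D.jL_int z)

/-- The truncated coordinates on the small model (junk outside `D.J1`). -/
def tO (n : ℕ) (x : J) : Fin g → RedIface75.Trunc O n := coord D.hEU n (D.extO x)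

theorem tO_mem (n : ℕ) (x : J) (i : Fin g) : D.tO n x i ∈ mT O n := coord_mem D.hEU n _ i

theorem tO_compat {m n : ℕ} (h : m ≤ n) (x : J) (i : Fin g) :
    D.tO m x i = truncMap O h (D.tO n x i) :=
  congrFun (coord_compat D.hEU h (D.extO x)) i

/-- The representatives of the coordinates in `ℚ̄`. -/
def cQ (n : ℕ) (x : J) (i : Fin g) : Qb := cRep D.jO D.e D.tO n x i

theorem tO_add (n : ℕ) {x y : J} (hx : x ∈ D.J1) (hy : y ∈ D.J1) (i : Fin g) :
    D.tO n (x + y) i =
      MvPolynomial.aeval (Sum.elim (D.tO n x) (D.tO n y)) (D.F n i) := by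
  unfold tO
  rw [D.ext_add hx hy]
  exact coord_mul_poly D.hEU (D.hF n) _ _ i

theorem tO_act (n : ℕ) (σ : Gp ℓ) {x : J} (hx : x ∈ D.J1) (i : Fin g) :
    haveI := D.fO_local σ
    D.tO n (D.act σ x) i = truncFun (D.fO σ) n (D.tO n x i) := by
  have := D.fO_local σ
  unfold tO
  rw [D.ext_act σ hx]
  exact congrFun (coord_semi (D.hb σ) D.hEU D.hEU n (D.extO x)) i

theorem tO_inj {x y : J} (hx : x ∈ D.J1) (hy : y ∈ D.J1) (h : ∀ n, D.tO n x = D.tO n y) :
    x = y := by
  have h1 : D.extO x = D.extO y := coord_inj D.hEU D.hInj h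
  apply D.cl_inj
  rw [← D.map_ext hx, ← D.map_ext hy, h1]

include D in
/-- **G9a-C (REPS).**  Hub data give arithmetic local analytic group data. -/
theorem nonempty_modCoordData : Nonempty (ModCoordData ℓ J M actM) := by
  refine ⟨{
    act := D.act
    act_one := D.act_one
    act_mul := D.act_mul
    J1 := D.J1
    J1_stable := fun σ x hx => D.J1_stable σ hx
    g := g
    O := D.jO.range
    O_int := ?_
    O_field := ?_
    c := D.cQ
    c_mem := fun x _ n i => cRep_mem D.jO D.e D.tO n x i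
    c_small := ?_
    c_compat := fun x _ n i =>
      cRep_compat D.jO_injective D.hpow D.tO_mem (fun h x i => D.tO_compat h x i) n x i
    c_inj := ?_
    c_equiv := ?_
    W0 := D.jW.range
    m := D.m
    m_ndvd := D.m_ndvd
    W0_mu := ?_
    add_law := ?_
    emb := D.emb
    emb_inj := D.emb_inj
    emb_equiv := D.emb_equiv
    centres := D.centres }⟩
  · rintro _ ⟨a, rfl⟩
    exact D.jL_int a
  · obtain ⟨E, hE, h⟩ := D.field
    exact ⟨E, hE, by rintro _ ⟨a, rfl⟩; exact h _⟩
  · intro x _ n i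
    obtain ⟨r, hr, h⟩ := cRep_small D.jO D.e D.tO n x i
    show ‖padicEmbedding ℓ (cRep D.jO D.e D.tO n x i)‖ < 1
    rw [h]
    exact (D.mem_max r).1 hr
  · intro x hx y hy h
    apply D.tO_inj hx hy
    apply cRep_inj D.jO_injective D.hpow D.tO_mem (fun h x i => D.tO_compat h x i) D.e_pos
    intro n i
    have h1 := h n i
    have h2 : D.cQ n x i - D.cQ n y i =
        D.jO (rep (D.tO (D.e * n) x i) - rep (D.tO (D.e * n) y i)) := (map_sub D.jO _ _).symm
    rw [h2] at h1
    obtain ⟨z, hz⟩ := D.div_pow _ n ((D.mem_pow _ n).2 h1)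
    refine ⟨D.jO z, ⟨z, rfl⟩, ?_⟩
    show D.cQ n x i - D.cQ n y i = _
    rw [h2, hz, map_mul, map_pow, map_natCast]
  · intro σ x hx n i
    have := D.fO_local σ
    refine cRep_equiv D.jO_injective D.hpow D.tO_mem (D.fO σ)
      ((localGaloisToGlobal ℓ σ : Qb ≃ₐ[ℚ] Qb) : Qb →+* Qb) ?_ n x (D.act σ x) i
      (D.tO_act (D.e * n) σ hx i)
    intro a
    show localGaloisToGlobal ℓ σ (D.jL (algebraMap O L a)) = D.jL (algebraMap O L (D.fO σ a))
    rw [← D.jL_fL, D.fOL]
  · rintro _ ⟨w, rfl⟩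
    exact D.W_mu w
  · intro n
    refine ⟨fun i => MvPolynomial.map D.jW.rangeRestrict (D.F (D.e * n) i), ?_⟩
    intro x hx y hy i
    exact cRep_add_aeval D.jO_injective D.hpow D.tO_mem D.jW D.jO_algebraMap (D.F (D.e * n)) n
      x y (x + y) (fun i => D.tO_add (D.e * n) hx hy i) i

end HubData

end Fermat.Agent.T1.Assembly41
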